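import Mathlib

/-!
# S05, piece (C2): abstract induction on the "component function" `ρ`

Pure (ordered) abelian group combinatorics, no curves.

* `S05H27.SimN N a b` : `a ≡ ± b` modulo `ℤ • N`.
* `S05H27.rho_nsmul_simN` : if `ρ : G → Γ` satisfies the unordered-pair relation
  `{ρ (P+Q), ρ (P-Q)} ~ {ρ P + ρ Q, ρ P - ρ Q}` then `ρ (j • x) ~ j • ρ x`.
* `S05H27.rho_pow_of_torsion` : if moreover `p • x = 0` then `p • ρ x ∈ ℤ • N`.
* `S05H27.root_extract` : torsion-freeness of linearly ordered groups.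
-/

set_option autoImplicit false

namespace S05H27

section SimN

variable {Γ : Type*} [AddCommGroup Γ]

/-- `a ≡ ± b` modulo the subgroup `ℤ • N`. -/
def SimN (N a b : Γ) : Prop := ∃ m : ℤ, a = b + m • N ∨ a = -b + m • N

lemma SimN.refl (N a : Γ) : SimN N a a := ⟨0, Or.inl (by simp)⟩

lemma SimN.symm {N a b : Γ} (h : SimN N a b) : SimN N b a := by
  obtain ⟨m, h | h⟩ := h
  · exact ⟨-m, Or.inl (by rw [h, neg_smul]; abel)⟩
  · exact ⟨m, Or.inr (by rw [h]; abel)⟩

lemma SimN.trans {N a b c : Γ} (h₁ : SimN N a b) (h₂ : SimN N b c) : SimN N a c := by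
  obtain ⟨m, h₁ | h₁⟩ := h₁ <;> obtain ⟨n, h₂ | h₂⟩ := h₂
  · exact ⟨m + n, Or.inl (by rw [h₁, h₂, add_smul]; abel)⟩
  · exact ⟨m + n, Or.inr (by rw [h₁, h₂, add_smul]; abel)⟩
  · exact ⟨m - n, Or.inr (by rw [h₁, h₂, sub_smul]; abel)⟩
  · exact ⟨m - n, Or.inl (by rw [h₁, h₂, sub_smul]; abel)⟩

lemma SimN.neg_right {N a b : Γ} (h : SimN N a b) : SimN N a (-b) := by
  obtain ⟨m, h | h⟩ := h
  · exact ⟨m, Or.inr (by rw [h]; abel)⟩
  · exact ⟨m, Or.inl h⟩

lemma SimN.neg_left {N a b : Γ} (h : SimN N a b) : SimN N (-a) b :=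
  (SimN.neg_right h.symm).symm

lemma SimN.of_eq {N a b : Γ} (h : a = b) : SimN N a b := h ▸ SimN.refl N a

/-- `a ~ b` and `b ≡ ± c` given by an explicit equation. -/
lemma SimN.add_zsmul {N a b : Γ} (h : SimN N a b) (k : ℤ) : SimN N a (b + k • N) := by
  obtain ⟨m, h | h⟩ := h
  · exact ⟨m - k, Or.inl (by rw [h, sub_smul]; abel)⟩
  · exact ⟨m + k, Or.inr (by rw [h, add_smul]; abel)⟩

lemma simN_zero_iff {N a : Γ} : SimN N a 0 ↔ ∃ m : ℤ, a = m • N := by
  constructor
  · rintro ⟨m, h | h⟩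
    · exact ⟨m, by simpa using h⟩
    · exact ⟨m, by simpa using h⟩
  · rintro ⟨m, h⟩
    exact ⟨m, Or.inl (by simpa using h)⟩

end SimN

section Induction

variable {G : Type*} [AddCommGroup G] {Γ : Type*} [AddCommGroup Γ]

/-- The unordered-pair relation satisfied by the component function. -/
def PairRel (ρ : G → Γ) (N : Γ) : Prop :=
  ∀ P Q : G,
    (SimN N (ρ (P + Q)) (ρ P + ρ Q) ∧ SimN N (ρ (P - Q)) (ρ P - ρ Q)) ∨
    (SimN N (ρ (P - Q)) (ρ P + ρ Q) ∧ SimN N (ρ (P + Q)) (ρ P - ρ Q))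

/-- Key step: from `β ~ j α`, `γ ~ (j-1) α` and the pair relation for `(β, α)` with
results `δ` (sum) and `γ` (difference), deduce `δ ~ (j+1) α`. -/
lemma step_simN {N α β γ δ : Γ} (j : ℤ)
    (hβ : SimN N β (j • α)) (hγ : SimN N γ ((j - 1) • α))
    (hR : (SimN N δ (β + α) ∧ SimN N γ (β - α)) ∨ (SimN N γ (β + α) ∧ SimN N δ (β - α))) :
    SimN N δ ((j + 1) • α) := by
  obtain ⟨m, hβ | hβ⟩ := hβ
  · -- β = jα + mN
    rcases hR with ⟨h1, -⟩ | ⟨h1, h2⟩
    · -- δ ~ β + α = (j+1)α + mN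
      have : β + α = (j + 1) • α + m • N := by rw [hβ, add_smul, one_smul]; abel
      rw [this] at h1
      exact h1.trans ((SimN.refl N ((j + 1) • α)).add_zsmul m).symm
    · -- γ ~ β + α = (j+1)α + mN, δ ~ β - α = (j-1)α + mN, γ ~ (j-1)α
      have e1 : β + α = (j + 1) • α + m • N := by rw [hβ, add_smul, one_smul]; abel
      have e2 : β - α = (j - 1) • α + m • N := by rw [hβ, sub_smul, one_smul]; abel
      rw [e1] at h1
      rw [e2] at h2
      have a1 : SimN N δ ((j - 1) • α) :=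
        h2.trans ((SimN.refl N ((j - 1) • α)).add_zsmul m).symm
      have a2 : SimN N γ ((j + 1) • α) :=
        h1.trans ((SimN.refl N ((j + 1) • α)).add_zsmul m).symm
      exact a1.trans (hγ.symm.trans a2)
  · -- β = -jα + mN
    rcases hR with ⟨h1, h2⟩ | ⟨-, h2⟩
    · -- δ ~ β + α = -(j-1)α + mN, γ ~ β - α = -(j+1)α + mN
      have e1 : β + α = -((j - 1) • α) + m • N := by rw [hβ, sub_smul, one_smul]; abel
      have e2 : β - α = -((j + 1) • α) + m • N := by rw [hβ, add_smul, one_smul]; abel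
      rw [e1] at h1
      rw [e2] at h2
      have a1 : SimN N δ ((j - 1) • α) :=
        (h1.trans ((SimN.refl N (-((j - 1) • α))).add_zsmul m).symm).trans
          (SimN.refl N ((j - 1) • α)).neg_left
      have a2 : SimN N γ ((j + 1) • α) :=
        (h2.trans ((SimN.refl N (-((j + 1) • α))).add_zsmul m).symm).trans
          (SimN.refl N ((j + 1) • α)).neg_left
      exact a1.trans (hγ.symm.trans a2)
    · -- δ ~ β - α = -(j+1)α + mN
      have e2 : β - α = -((j + 1) • α) + m • N := by rw [hβ, add_smul, one_smul]; abel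
      rw [e2] at h2
      exact (h2.trans ((SimN.refl N (-((j + 1) • α))).add_zsmul m).symm).trans
          (SimN.refl N ((j + 1) • α)).neg_left

/-- `ρ (j • x) ~ j • ρ x` for all `j : ℕ`. -/
theorem rho_nsmul_simN (ρ : G → Γ) (N : Γ) (hρ0 : ρ 0 = 0) (hR : PairRel ρ N) (x : G) :
    ∀ j : ℕ, SimN N (ρ (j • x)) (j • ρ x) ∧ SimN N (ρ ((j + 1) • x)) ((j + 1) • ρ x) := by
  intro j
  induction j with
  | zero =>
    refine ⟨?_, ?_⟩
    · simp only [zero_smul, hρ0]; exact SimN.refl N 0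
    · simp only [zero_add, one_smul]; exact SimN.refl N _
  | succ j ih =>
    refine ⟨ih.2, ?_⟩
    have h := hR ((j + 1) • x) x
    have e1 : (j + 1) • x + x = (j + 1 + 1) • x := by rw [add_smul (j + 1) 1 x, one_smul]
    have e2 : (j + 1) • x - x = j • x := by rw [add_smul j 1 x, one_smul]; abel
    rw [e1, e2] at h
    have hβ : SimN N (ρ ((j + 1) • x)) (((j : ℤ) + 1) • ρ x) := by
      have := ih.2
      rwa [show (j + 1) • ρ x = ((j : ℤ) + 1) • ρ x by
        rw [← Nat.cast_succ, natCast_zsmul]] at this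
    have hγ : SimN N (ρ (j • x)) ((((j : ℤ) + 1) - 1) • ρ x) := by
      have := ih.1
      rwa [show j • ρ x = (((j : ℤ) + 1) - 1) • ρ x by
        rw [add_sub_cancel_right, natCast_zsmul]] at this
    have key := step_simN ((j : ℤ) + 1) hβ hγ h
    rwa [show (((j : ℤ) + 1) + 1) • ρ x = (j + 1 + 1) • ρ x by
      rw [← Nat.cast_succ, ← Nat.cast_succ, natCast_zsmul]] at key

/-- If `p • x = 0` then `p • ρ x` is an integer multiple of `N`. -/
theorem rho_pow_of_torsion (ρ : G → Γ) (N : Γ) (hρ0 : ρ 0 = 0) (hR : PairRel ρ N)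
    (x : G) (p : ℕ) (hx : p • x = 0) : ∃ m : ℤ, p • ρ x = m • N := by
  have h := (rho_nsmul_simN ρ N hρ0 hR x p).1
  rw [hx, hρ0] at h
  obtain ⟨m, h | h⟩ := h
  · exact ⟨-m, by rw [neg_smul]; exact eq_neg_of_add_eq_zero_left h.symm⟩
  · refine ⟨m, ?_⟩
    have : (0 : Γ) = -(p • ρ x) + m • N := h
    rw [eq_comm, neg_add_eq_zero] at this
    exact this

end Induction

section Order

variable {Γ : Type*} [AddCommGroup Γ] [LinearOrder Γ] [IsOrderedAddMonoid Γ]

/-- Linearly ordered additive groups are torsion-free. -/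
lemma nsmul_eq_zero_imp {p : ℕ} (hp : 0 < p) {z : Γ} (h : p • z = 0) : z = 0 := by
  rcases lt_trichotomy z 0 with hz | hz | hz
  · exact absurd h (ne_of_lt (nsmul_neg_iff (Nat.pos_iff_ne_zero.mp hp) |>.mpr hz |> fun h => h))
  · exact hz
  · exact absurd h (ne_of_gt (nsmul_pos hz (Nat.pos_iff_ne_zero.mp hp)))

/-- Root extraction: `p • a = m • ((2 p k) • π)` implies `a = (2 k m) • π`. -/
theorem root_extract (a π : Γ) (p k : ℕ) (hp : 0 < p) (m : ℤ)
    (h : p • a = m • ((2 * p * k) • π)) : a = (2 * (k : ℤ) * m) • π := by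
  have : p • (a - (2 * (k : ℤ) * m) • π) = 0 := by
    rw [smul_sub, h, sub_eq_zero, ← natCast_zsmul ((2 * (k : ℤ) * m) • π) p,
      ← natCast_zsmul π (2 * p * k), smul_smul, smul_smul]
    congr 1
    push_cast
    ring
  exact sub_eq_zero.mp (nsmul_eq_zero_imp hp this)

/-- A positive integer multiple of a positive element is a positive natural multiple. -/
theorem exists_nat_of_zsmul_pos {a π : Γ} (hπ : 0 < π) (ha : 0 < a) {j : ℤ} (h : a = j • π) :
    ∃ M : ℕ, 0 < M ∧ a = M • π := by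
  have hj : 0 < j := by
    by_contra hj
    rw [not_lt] at hj
    have : j • π ≤ 0 := (smul_nonpos_iff_nonpos_of_pos_right hπ).mpr hj
    exact absurd (h ▸ ha) (not_lt.mpr this)
  refine ⟨j.toNat, by omega, ?_⟩
  rw [h, ← natCast_zsmul, Int.toNat_of_nonneg hj.le]

end Order

end S05H27
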