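import Mathlib

/-!
# Newton polygon for a quadratic `z² - S z + Π` over a valued field

Pure valuation lemmas: from the valuations of `S = z₁ + z₂` and `Π = z₁ z₂` deduce the
valuations of `z₁`, `z₂`.  Multiplicative notation, `v : Valuation K Γ₀`.
-/

set_option autoImplicit false

namespace S05H27

variable {K : Type*} [Field K] {Γ₀ : Type*} [LinearOrderedCommGroupWithZero Γ₀]
  (v : Valuation K Γ₀)

/-- (NP1) Upper bound: `v S ≤ c`, `v Π ≤ c²` imply `v zᵢ ≤ c`. -/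
theorem np_le {z₁ z₂ : K} {c : Γ₀} (hS : v (z₁ + z₂) ≤ c) (hP : v (z₁ * z₂) ≤ c * c) :
    v z₁ ≤ c ∧ v z₂ ≤ c := by
  have key : ∀ a b : K, v (a + b) ≤ c → v (a * b) ≤ c * c → v a ≤ c := by
    intro a b hS hP
    by_contra ha
    rw [not_le] at ha
    have hb : v b ≤ c := by
      by_contra hb
      rw [not_le] at hb
      have : c * c < v a * v b := mul_lt_mul'' ha hb zero_le zero_le
      rw [map_mul] at hP
      exact absurd hP (not_le.mpr this)
    have hba : v b < v a := lt_of_le_of_lt hb ha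
    have : v (a + b) = v a := Valuation.map_add_eq_of_lt_left v hba
    rw [this] at hS
    exact absurd hS (not_le.mpr ha)
  refine ⟨key z₁ z₂ hS hP, key z₂ z₁ ?_ ?_⟩
  · rwa [add_comm]
  · rwa [mul_comm]

/-- (NP1') integrality: `v S ≤ 1`, `v Π ≤ 1` imply `v zᵢ ≤ 1`. -/
theorem np_le_one {z₁ z₂ : K} (hS : v (z₁ + z₂) ≤ 1) (hP : v (z₁ * z₂) ≤ 1) :
    v z₁ ≤ 1 ∧ v z₂ ≤ 1 :=
  np_le v hS (by simpa using hP)

/-- (NP2) Single slope: `v Π = c²`, `v S ≤ c` imply `v zᵢ = c`. -/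
theorem np_eq {z₁ z₂ : K} {c : Γ₀} (hS : v (z₁ + z₂) ≤ c) (hP : v (z₁ * z₂) = c * c) :
    v z₁ = c ∧ v z₂ = c := by
  obtain ⟨h₁, h₂⟩ := np_le v hS hP.le
  rw [map_mul] at hP
  constructor
  · by_contra h
    have hlt : v z₁ < c := lt_of_le_of_ne h₁ h
    have hc : 0 < c := lt_of_le_of_lt zero_le hlt
    have : v z₁ * v z₂ < c * c :=
      calc v z₁ * v z₂ ≤ v z₁ * c := mul_le_mul' le_rfl h₂
        _ < c * c := by
          exact (mul_lt_mul_iff_left₀ hc).mpr hlt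
    exact absurd hP (ne_of_lt this)
  · by_contra h
    have hlt : v z₂ < c := lt_of_le_of_ne h₂ h
    have hc : 0 < c := lt_of_le_of_lt zero_le hlt
    have : v z₁ * v z₂ < c * c :=
      calc v z₁ * v z₂ ≤ c * v z₂ := mul_le_mul' h₁ le_rfl
        _ < c * c := by
          exact (mul_lt_mul_iff_right₀ hc).mpr hlt
    exact absurd hP (ne_of_lt this)

/-- (NP3) Two slopes: if `v Π < (v S)²` then `{v z₁, v z₂} = {v S, v Π / v S}`. -/
theorem np_two_slopes {z₁ z₂ : K} (h : v (z₁ * z₂) < v (z₁ + z₂) * v (z₁ + z₂)) :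
    (v z₁ = v (z₁ + z₂) ∧ v z₂ = v (z₁ * z₂) / v (z₁ + z₂) ∧ v z₂ < v z₁) ∨
    (v z₂ = v (z₁ + z₂) ∧ v z₁ = v (z₁ * z₂) / v (z₁ + z₂) ∧ v z₁ < v z₂) := by
  have key : ∀ a b : K, v b < v a → v (a * b) < v (a + b) * v (a + b) →
      v a = v (a + b) ∧ v b = v (a * b) / v (a + b) ∧ v b < v a := by
    intro a b hba _
    have hS : v (a + b) = v a := Valuation.map_add_eq_of_lt_left v hba
    have ha0 : v a ≠ 0 := ne_of_gt (lt_of_le_of_lt zero_le hba)
    refine ⟨hS.symm, ?_, hba⟩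
    rw [hS, map_mul, mul_comm, mul_div_assoc, div_self ha0, mul_one]
  rcases lt_trichotomy (v z₁) (v z₂) with h12 | h12 | h12
  · right
    have := key z₂ z₁ h12 (by rwa [mul_comm, add_comm])
    rwa [mul_comm z₂ z₁, add_comm z₂ z₁] at this
  · exfalso
    have hS : v (z₁ + z₂) ≤ v z₁ := by
      calc v (z₁ + z₂) ≤ max (v z₁) (v z₂) := v.map_add _ _
        _ = v z₁ := by rw [h12, max_self]
    have : v (z₁ + z₂) * v (z₁ + z₂) ≤ v z₁ * v z₁ := mul_le_mul' hS hS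
    rw [map_mul, ← h12] at h
    exact absurd h (not_lt.mpr this)
  · left
    exact key z₁ z₂ h12 h

/-- (NP4) Lower bound: `c² ≤ v Π` and `c * v S ≤ v Π` imply `c ≤ v zᵢ`. -/
theorem np_ge {z₁ z₂ : K} {c : Γ₀} (hP : c * c ≤ v (z₁ * z₂))
    (hS : c * v (z₁ + z₂) ≤ v (z₁ * z₂)) : c ≤ v z₁ ∧ c ≤ v z₂ := by
  have key : ∀ a b : K, c * c ≤ v (a * b) → c * v (a + b) ≤ v (a * b) → c ≤ v b := by
    intro a b hP hS
    by_contra hb
    rw [not_le] at hb
    have hc : 0 < c := lt_of_le_of_lt zero_le hb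
    rw [map_mul] at hP hS
    have hb0 : 0 < v b := by
      by_contra h0
      have : v b = 0 := le_antisymm (not_lt.mp h0) zero_le
      rw [this, mul_zero] at hP
      exact absurd hP (not_le.mpr (mul_pos hc hc))
    have ha : c < v a := by
      by_contra ha
      rw [not_lt] at ha
      have : v a * v b < c * c :=
        calc v a * v b ≤ c * v b := mul_le_mul' ha le_rfl
          _ < c * c := (mul_lt_mul_iff_right₀ hc).mpr hb
      exact absurd hP (not_le.mpr this)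
    have hba : v b < v a := hb.trans ha
    have hSa : v (a + b) = v a := Valuation.map_add_eq_of_lt_left v hba
    rw [hSa, mul_comm c (v a)] at hS
    have ha0 : 0 < v a := lt_trans hc ha
    have : c ≤ v b := (mul_le_mul_iff_right₀ ha0).mp hS
    exact absurd this (not_le.mpr hb)
  refine ⟨key z₂ z₁ ?_ ?_, key z₁ z₂ hP hS⟩
  · rwa [mul_comm z₂ z₁]
  · rwa [mul_comm z₂ z₁, add_comm z₂ z₁]

/-- (NP4') `1 ≤ v Π` and `v S ≤ v Π` imply `1 ≤ v zᵢ`. -/
theorem np_one_le {z₁ z₂ : K} (hP : 1 ≤ v (z₁ * z₂))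
    (hS : v (z₁ + z₂) ≤ v (z₁ * z₂)) : 1 ≤ v z₁ ∧ 1 ≤ v z₂ :=
  np_ge v (c := 1) (by simpa using hP) (by simpa using hS)

end S05H27
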